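/-
T16 / LB (helper61): the PARABOLIC CRITERION for `Γ₀(p)`, `p` prime.

* `apply_T_add_apply_V` : every homomorphism `φ : Γ₀(p) → ℤ` satisfies `φ(T) + φ(S T^p S⁻¹) = 0`
  (hand-rolled transfer to `SL(2,ℤ)`, whose only homomorphism to `ℤ` is zero).
* `exists_conj_T_or_V` : an element of `Γ₀(p)` with `trace² = 4` is, up to a `Γ₀(p)`-conjugation
  and a sign, a power of `T` or a power of `V = S T^p S⁻¹`.
* `isParabolicHom_of_apply_T_eq_zero` : a homomorphism `φ : Γ₀(p) → ℤ` with `φ(T) = 0` is parabolic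
  in the prelude's sense.
-/
import Fermat.Agent.S21_helper65.Parabolic
import Fermat.Agent.S16.Conj.SymCoset

set_option autoImplicit false

open CongruenceSubgroup ModularGroup Matrix.SpecialLinearGroup
open scoped MatrixGroups

namespace Fermat.Agent.S16_helper61

open Fermat.Agent.S16.Conj (Idx rep exists_rep_mul_mem rep_injective)
open ModularCurve.Period

variable (p : ℕ) [Fact p.Prime]

/-! ### The right action of `SL(2,ℤ)` on the index set of `Γ₀(p) \ SL(2,ℤ)` -/

theorem exists_idx (x : Idx p) (g : SL(2, ℤ)) :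
    ∃ y : Idx p, rep p x * g * (rep p y)⁻¹ ∈ Gamma0 p := by
  obtain ⟨y, hy⟩ := exists_rep_mul_mem (p := p) (rep p x * g)⁻¹
  refine ⟨y, ?_⟩
  have := (Gamma0 p).inv_mem hy
  simpa [mul_inv_rev, mul_assoc] using this

/-- the index of the coset `Γ₀(p) · rep x · g`. -/
noncomputable def act (x : Idx p) (g : SL(2, ℤ)) : Idx p := (exists_idx p x g).choose

theorem act_spec (x : Idx p) (g : SL(2, ℤ)) :
    rep p x * g * (rep p (act p x g))⁻¹ ∈ Gamma0 p := (exists_idx p x g).choose_spec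

theorem act_unique {x y : Idx p} {g : SL(2, ℤ)}
    (h : rep p x * g * (rep p y)⁻¹ ∈ Gamma0 p) : act p x g = y := by
  apply rep_injective (p := p)
  have h1 := (Gamma0 p).mul_mem ((Gamma0 p).inv_mem (act_spec p x g)) h
  have e : (rep p x * g * (rep p (act p x g))⁻¹)⁻¹ * (rep p x * g * (rep p y)⁻¹)
      = rep p (act p x g) * (rep p y)⁻¹ := by group
  rwa [e] at h1

theorem act_one (x : Idx p) : act p x 1 = x :=
  act_unique p (by simp [(Gamma0 p).one_mem])

theorem act_mul (x : Idx p) (g h : SL(2, ℤ)) : act p x (g * h) = act p (act p x g) h := by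
  apply act_unique
  have h1 := (Gamma0 p).mul_mem (act_spec p x g) (act_spec p (act p x g) h)
  have e : rep p x * g * (rep p (act p x g))⁻¹ *
      (rep p (act p x g) * h * (rep p (act p (act p x g) h))⁻¹)
      = rep p x * (g * h) * (rep p (act p (act p x g) h))⁻¹ := by group
  rwa [e] at h1

/-- `x ↦ x · g` as a permutation of the index set. -/
noncomputable def actEquiv (g : SL(2, ℤ)) : Idx p ≃ Idx p where
  toFun x := act p x g
  invFun x := act p x g⁻¹
  left_inv x := by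
    show act p (act p x g) g⁻¹ = x
    rw [← act_mul, mul_inv_cancel, act_one]
  right_inv x := by
    show act p (act p x g⁻¹) g = x
    rw [← act_mul, inv_mul_cancel, act_one]

/-- the `Γ₀(p)`-part of `rep x * g`. -/
noncomputable def tel (x : Idx p) (g : SL(2, ℤ)) : Gamma0 p :=
  ⟨rep p x * g * (rep p (act p x g))⁻¹, act_spec p x g⟩

theorem tel_mul (x : Idx p) (g h : SL(2, ℤ)) :
    tel p x (g * h) = tel p x g * tel p (act p x g) h := by
  apply Subtype.ext
  show rep p x * (g * h) * (rep p (act p x (g * h)))⁻¹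
    = rep p x * g * (rep p (act p x g))⁻¹ *
      (rep p (act p x g) * h * (rep p (act p (act p x g) h))⁻¹)
  rw [act_mul]
  group

theorem tel_eq {x y : Idx p} {g : SL(2, ℤ)} (γ : Gamma0 p)
    (h : rep p x * g = (γ : SL(2, ℤ)) * rep p y) : tel p x g = γ := by
  have hy : act p x g = y := by
    apply act_unique
    rw [h, mul_inv_cancel_right]
    exact γ.2
  apply Subtype.ext
  show rep p x * g * (rep p (act p x g))⁻¹ = γ
  rw [hy, h, mul_inv_cancel_right]

/-! ### The transfer of a homomorphism `Γ₀(p) → ℤ` -/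

/-- the transfer `SL(2,ℤ) → ℤ` of `φ : Γ₀(p) → ℤ`. -/
noncomputable def transferHom (φ : Additive (Gamma0 p) →+ ℤ) : Additive SL(2, ℤ) →+ ℤ where
  toFun g := ∑ x : Idx p, φ (Additive.ofMul (tel p x (Additive.toMul g)))
  map_zero' := by
    have : ∀ x : Idx p, tel p x (1 : SL(2, ℤ)) = 1 := fun x =>
      tel_eq p (y := x) 1 (by simp)
    simp [this]
  map_add' g h := by
    show ∑ x : Idx p, φ (Additive.ofMul (tel p x (Additive.toMul g * Additive.toMul h))) = _
    simp_rw [tel_mul, ofMul_mul, map_add, Finset.sum_add_distrib]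
    congr 1
    exact (actEquiv p (Additive.toMul g)).sum_comp
      (fun y => φ (Additive.ofMul (tel p y (Additive.toMul h))))

/-- every homomorphism `SL(2,ℤ) → ℤ` is zero. -/
theorem addHom_SL2Z_eq_zero (ψ : Additive SL(2, ℤ) →+ ℤ) (g : SL(2, ℤ)) :
    ψ (Additive.ofMul g) = 0 := by
  have hS : ψ (Additive.ofMul S) = 0 := by
    have h4 : (S : SL(2, ℤ)) ^ 4 = 1 := by decide
    have := congrArg (fun t => ψ (Additive.ofMul t)) h4
    simp only [ofMul_pow, map_nsmul, ofMul_one, map_zero] at this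
    rcases smul_eq_zero.mp this with h | h
    · omega
    · exact h
  have hST : ψ (Additive.ofMul (S * T)) = 0 := by
    have h6 : (S * T : SL(2, ℤ)) ^ 6 = 1 := by decide
    have := congrArg (fun t => ψ (Additive.ofMul t)) h6
    simp only [ofMul_pow, map_nsmul, ofMul_one, map_zero] at this
    rcases smul_eq_zero.mp this with h | h
    · omega
    · exact h
  have hT : ψ (Additive.ofMul T) = 0 := by
    have := hST
    rw [ofMul_mul, map_add, hS, zero_add] at this
    exact this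
  have hmem : g ∈ Subgroup.closure ({S, T} : Set SL(2, ℤ)) := by
    rw [SpecialLinearGroup.SL2Z_generators]; trivial
  induction hmem using Subgroup.closure_induction with
  | mem x hx =>
    rcases hx with rfl | rfl
    · exact hS
    · exact hT
  | one => simp
  | mul x y _ _ hx hy => rw [ofMul_mul, map_add, hx, hy, add_zero]
  | inv x _ hx => rw [ofMul_inv, map_neg, hx, neg_zero]

/-! ### The two cusp loops -/

theorem T_mem : (T : SL(2, ℤ)) ∈ Gamma0 p := by
  rw [Gamma0_mem, coe_T]; simp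

/-- the loop around the cusp `∞`. -/
def Tel : Gamma0 p := ⟨T, T_mem p⟩

omit [Fact p.Prime] in
theorem coe_V : ((S * T ^ (p : ℤ) * S⁻¹ : SL(2, ℤ)) : Matrix (Fin 2) (Fin 2) ℤ)
    = !![1, 0; -(p : ℤ), 1] := by
  rw [coe_mul, coe_mul, coe_inv, coe_T_zpow, coe_S, Matrix.adjugate_fin_two_of]
  ext i j
  fin_cases i <;> fin_cases j <;> simp [Matrix.mul_apply, Fin.sum_univ_two]

theorem V_mem : (S * T ^ (p : ℤ) * S⁻¹ : SL(2, ℤ)) ∈ Gamma0 p := by
  rw [Gamma0_mem]
  show ((((S * T ^ (p : ℤ) * S⁻¹ : SL(2, ℤ)) : Matrix (Fin 2) (Fin 2) ℤ) 1 0 : ℤ) : ZMod p) = 0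
  rw [coe_V]
  simp

/-- the loop around the cusp `0`: `V = S T^p S⁻¹ = [[1,0],[-p,1]]`. -/
def Vel : Gamma0 p := ⟨S * T ^ (p : ℤ) * S⁻¹, V_mem p⟩


/-! ### (P1) the transfer relation -/

theorem tel_none_T : tel p none T = Tel p :=
  tel_eq p (x := none) (y := none) (Tel p) (by simp [Tel])

theorem tel_some_T_of_lt (j : Fin p) (hj : (j : ℕ) + 1 < p) : tel p (some j) T = 1 :=
  tel_eq p (x := some j) (y := some ⟨(j : ℕ) + 1, hj⟩) 1 (by
    simp only [Fermat.Agent.S16.Conj.rep_some, OneMemClass.coe_one, one_mul]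
    rw [mul_assoc, ← pow_succ])

theorem tel_some_T_of_eq (j : Fin p) (hj : (j : ℕ) + 1 = p) : tel p (some j) T = Vel p := by
  have hp : 0 < p := by omega
  refine tel_eq p (x := some j) (y := some ⟨0, hp⟩) (Vel p) ?_
  simp only [Fermat.Agent.S16.Conj.rep_some, Vel, pow_zero, mul_one]
  rw [mul_assoc, ← pow_succ, hj, inv_mul_cancel_right, zpow_natCast]

/-- **(P1)** the transfer relation: the two cusp loops are opposite in `Γ₀(p)^ab / torsion`. -/
theorem apply_T_add_apply_V (φ : Additive (Gamma0 p) →+ ℤ) :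
    φ (Additive.ofMul (Tel p)) + φ (Additive.ofMul (Vel p)) = 0 := by
  have hp : p.Prime := Fact.out
  have h0 := addHom_SL2Z_eq_zero (transferHom p φ) T
  change ∑ x : Idx p, φ (Additive.ofMul (tel p x T)) = 0 at h0
  rw [Fintype.sum_option, tel_none_T] at h0
  have hlast : (p - 1) < p := Nat.sub_lt hp.pos one_pos
  rw [Finset.sum_eq_single (⟨p - 1, hlast⟩ : Fin p)] at h0
  · rwa [tel_some_T_of_eq p ⟨p - 1, hlast⟩ (by simp; omega)] at h0
  · intro j _ hj
    have hj' : (j : ℕ) + 1 < p := by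
      have h1 := j.2
      have h2 : (j : ℕ) ≠ p - 1 := fun h => hj (Fin.ext h)
      omega
    rw [tel_some_T_of_lt p j hj']
    simp
  · intro h; exact absurd (Finset.mem_univ _) h


/-! ### (P2) classification of the elements with `trace² = 4` -/

omit [Fact p.Prime] in
theorem eq_T_zpow_or_neg (g : SL(2, ℤ)) (hc : g 1 0 = 0) :
    ∃ n : ℤ, g = T ^ n ∨ g = -T ^ n := by
  have hdet : g 0 0 * g 1 1 - g 0 1 * g 1 0 = 1 := by
    have := g.det_coe
    rw [Matrix.det_fin_two] at this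
    exact this
  rw [hc, mul_zero, sub_zero] at hdet
  rcases Int.eq_one_or_neg_one_of_mul_eq_one' hdet with ⟨ha, hd⟩ | ⟨ha, hd⟩
  · refine ⟨g 0 1, Or.inl ?_⟩
    ext i j
    rw [coe_T_zpow]
    fin_cases i <;> fin_cases j <;> simp [ha, hd, hc]
  · refine ⟨-(g 0 1), Or.inr ?_⟩
    ext i j
    rw [coe_neg, coe_T_zpow]
    fin_cases i <;> fin_cases j <;> simp [ha, hd, hc]

omit [Fact p.Prime] in
theorem coe_S_T_zpow_S_inv (n : ℤ) :
    ((S * T ^ n * S⁻¹ : SL(2, ℤ)) : Matrix (Fin 2) (Fin 2) ℤ) = !![1, 0; -n, 1] := by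
  rw [coe_mul, coe_mul, coe_inv, coe_T_zpow, coe_S, Matrix.adjugate_fin_two_of]
  ext i j
  fin_cases i <;> fin_cases j <;> simp [Matrix.mul_apply, Fin.sum_univ_two]

theorem neg_one_mem : (-1 : SL(2, ℤ)) ∈ Gamma0 p := by
  rw [Gamma0_mem]
  simp

/-- `-1` as an element of `Γ₀(p)`. -/
def negOne : Gamma0 p := ⟨-1, neg_one_mem p⟩

theorem apply_negOne (φ : Additive (Gamma0 p) →+ ℤ) : φ (Additive.ofMul (negOne p)) = 0 := by
  have h2 : (negOne p) ^ 2 = 1 := by
    apply Subtype.ext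
    show ((-1 : SL(2, ℤ))) ^ 2 = 1
    simp
  have := congrArg (fun t => φ (Additive.ofMul t)) h2
  simp only [ofMul_pow, map_nsmul, ofMul_one, map_zero] at this
  rcases smul_eq_zero.mp this with h | h
  · omega
  · exact h

/-- **(P2)** an element of `Γ₀(p)` with `trace² = 4` is `Γ₀(p)`-conjugate to `± T^n` or `± V^n`. -/
theorem exists_conj_T_or_V (γ : Gamma0 p)
    (htr : (((γ : SL(2, ℤ)) : Matrix (Fin 2) (Fin 2) ℤ)).trace ^ 2 = 4) :
    ∃ (η : Gamma0 p) (n : ℤ),
      η * γ * η⁻¹ = Tel p ^ n ∨ η * γ * η⁻¹ = negOne p * Tel p ^ n ∨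
      η * γ * η⁻¹ = Vel p ^ n ∨ η * γ * η⁻¹ = negOne p * Vel p ^ n := by
  have hp : p.Prime := Fact.out
  obtain ⟨δ, hδ⟩ := Fermat.Agent.S21_helper65.exists_conj_upper (γ : SL(2, ℤ)) htr
  obtain ⟨n, hn⟩ := eq_T_zpow_or_neg (δ⁻¹ * γ * δ) hδ
  obtain ⟨x, hx⟩ := exists_rep_mul_mem (p := p) δ⁻¹
  -- `η = rep x * δ⁻¹ ∈ Γ₀(p)` and `η γ η⁻¹ = rep x * (δ⁻¹ γ δ) * (rep x)⁻¹`
  set η : Gamma0 p := ⟨rep p x * δ⁻¹, hx⟩ with hη
  have hconj : ((η * γ * η⁻¹ : Gamma0 p) : SL(2, ℤ))
      = rep p x * (δ⁻¹ * (γ : SL(2, ℤ)) * δ) * (rep p x)⁻¹ := by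
    show rep p x * δ⁻¹ * (γ : SL(2, ℤ)) * (rep p x * δ⁻¹)⁻¹ = _
    group
  rcases x with _ | j
  · -- the cusp `∞`
    refine ⟨η, n, ?_⟩
    rcases hn with hn | hn
    · left
      apply Subtype.ext
      rw [hconj, hn]
      simp [Tel]
    · right; left
      apply Subtype.ext
      rw [hconj, hn]
      simp [Tel, negOne]
  · -- the cusp `0`
    have hmem : ((η * γ * η⁻¹ : Gamma0 p) : SL(2, ℤ)) ∈ Gamma0 p := (η * γ * η⁻¹).2
    have hST : ∀ m : ℤ, rep p (some j) * T ^ m * (rep p (some j))⁻¹ = S * T ^ m * S⁻¹ := by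
      intro m
      simp only [Fermat.Agent.S16.Conj.rep_some]
      rw [← zpow_natCast]
      have : S * T ^ ((j : ℕ) : ℤ) * T ^ m * (S * T ^ ((j : ℕ) : ℤ))⁻¹
          = S * (T ^ ((j : ℕ) : ℤ) * T ^ m * (T ^ ((j : ℕ) : ℤ))⁻¹) * S⁻¹ := by group
      rw [this, ← zpow_add, ← zpow_neg, ← zpow_add]
      congr 2
      ring_nf
    -- `p ∣ n`
    have hdvd : (p : ℤ) ∣ n := by
      rw [hconj, Gamma0_mem] at hmem
      rcases hn with hn | hn
      · rw [hn, hST] at hmem
        have e : ((S * T ^ n * S⁻¹ : SL(2, ℤ)) 1 0 : ℤ) = -n := by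
          show ((S * T ^ n * S⁻¹ : SL(2, ℤ)) : Matrix (Fin 2) (Fin 2) ℤ) 1 0 = -n
          rw [coe_S_T_zpow_S_inv]; simp
        rw [e] at hmem
        have := (ZMod.intCast_zmod_eq_zero_iff_dvd (-n) p).mp hmem
        exact (dvd_neg.mp this)
      · have e1 : rep p (some j) * (-T ^ n) * (rep p (some j))⁻¹
            = -(S * T ^ n * S⁻¹) := by
          rw [← hST n]
          simp
        rw [hn, e1] at hmem
        have e : ((-(S * T ^ n * S⁻¹) : SL(2, ℤ)) 1 0 : ℤ) = n := by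
          show ((-(S * T ^ n * S⁻¹) : SL(2, ℤ)) : Matrix (Fin 2) (Fin 2) ℤ) 1 0 = n
          rw [coe_neg, coe_S_T_zpow_S_inv]; simp
        rw [e] at hmem
        exact (ZMod.intCast_zmod_eq_zero_iff_dvd n p).mp hmem
    obtain ⟨m, rfl⟩ := hdvd
    have hV : (S * T ^ ((p : ℤ) * m) * S⁻¹ : SL(2, ℤ)) = (S * T ^ (p : ℤ) * S⁻¹) ^ m := by
      rw [conj_zpow, zpow_mul]
    refine ⟨η, m, ?_⟩
    rcases hn with hn | hn
    · right; right; left
      apply Subtype.ext
      rw [hconj, hn, hST, hV]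
      simp [Vel]
    · right; right; right
      apply Subtype.ext
      have e1 : rep p (some j) * (-T ^ ((p : ℤ) * m)) * (rep p (some j))⁻¹
          = -(S * T ^ ((p : ℤ) * m) * S⁻¹) := by
        rw [← hST ((p : ℤ) * m)]
        simp
      rw [hconj, hn, e1, hV]
      simp [Vel, negOne]

/-! ### (P3) the parabolic criterion -/

/-- **(P3)** a homomorphism `Γ₀(p) → ℤ` vanishing at the cusp loop `T` is parabolic. -/
theorem isParabolicHom_of_apply_T_eq_zero (φ : Additive (Gamma0 p) →+ ℤ)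
    (hT : φ (Additive.ofMul (Tel p)) = 0) : IsParabolicHom (Gamma0 p) φ := by
  have hV : φ (Additive.ofMul (Vel p)) = 0 := by
    have := apply_T_add_apply_V p φ
    rw [hT, zero_add] at this
    exact this
  intro γ hγ
  obtain ⟨η, n, h⟩ := exists_conj_T_or_V p γ hγ
  have hconj : φ (Additive.ofMul (η * γ * η⁻¹)) = φ (Additive.ofMul γ) := by
    rw [ofMul_mul, ofMul_mul, ofMul_inv, map_add, map_add, map_neg]
    ring
  rw [← hconj]
  rcases h with h | h | h | h <;> rw [h]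
  · rw [ofMul_zpow, map_zsmul, hT, smul_zero]
  · rw [ofMul_mul, map_add, apply_negOne, ofMul_zpow, map_zsmul, hT, smul_zero, add_zero]
  · rw [ofMul_zpow, map_zsmul, hV, smul_zero]
  · rw [ofMul_mul, map_add, apply_negOne, ofMul_zpow, map_zsmul, hV, smul_zero, add_zero]

end Fermat.Agent.S16_helper61
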