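/-
T16 / LB (helper61): the PARABOLIC CORRECTION of an integral lift.

If `ψ : Γ₀(p) → ℤ/n` is parabolic and `Φ₀ : Γ₀(p) → ℤ` is ANY integral lift of `ψ`, then
`Φ := Φ₀ - Φ₀(T) • e` (`e(T) = 1`, helper65's `exists_addHom_T_eq_one`) is a PARABOLIC integral
lift of `ψ` (helper61's `isParabolicHom_of_apply_T_eq_zero`).
-/
import Fermat.Agent.S16_helper61.ParabolicCrit
import Fermat.Agent.S16.LB.CuspHom

set_option autoImplicit false

open CongruenceSubgroup ModularGroup Matrix.SpecialLinearGroup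
open scoped MatrixGroups

namespace Fermat.Agent.S16_helper61

open ModularCurve.Period

variable (p : ℕ) [Fact p.Prime]

/-- a homomorphism `e : Γ₀(p) → ℤ` with `e(T) = 1`, as an `AddMonoidHom`. -/
theorem exists_addMonoidHom_T_eq_one :
    ∃ e : Additive (Gamma0 p) →+ ℤ, e (Additive.ofMul (Tel p)) = 1 := by
  have hp : p.Prime := Fact.out
  obtain ⟨e, he, heT⟩ := Fermat.Agent.S16.LB.exists_addHom_T_eq_one p hp.two_le
  refine ⟨AddMonoidHom.mk' (fun g => e (Additive.toMul g)) (fun a b => he _ _), ?_⟩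
  exact heT

theorem trace_Tel : (((Tel p : Gamma0 p) : SL(2, ℤ)) : Matrix (Fin 2) (Fin 2) ℤ).trace ^ 2 = 4 := by
  show ((T : SL(2, ℤ)) : Matrix (Fin 2) (Fin 2) ℤ).trace ^ 2 = 4
  rw [coe_T, Matrix.trace_fin_two_of]
  norm_num

/-- **parabolic correction**: any integral lift of a parabolic class mod `n` can be corrected to a
parabolic integral lift. -/
theorem exists_parabolic_lift_of_lift (n : ℕ) (ψ : Additive (Gamma0 p) →+ ZMod n)
    (hpar : IsParabolicHom (Gamma0 p) ψ) (Φ₀ : Additive (Gamma0 p) →+ ℤ)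
    (h₀ : ∀ g, ((Φ₀ g : ℤ) : ZMod n) = ψ g) :
    ∃ Φ : Additive (Gamma0 p) →+ ℤ, IsParabolicHom (Gamma0 p) Φ ∧
      ∀ g, ((Φ g : ℤ) : ZMod n) = ψ g := by
  obtain ⟨e, he⟩ := exists_addMonoidHom_T_eq_one p
  set c : ℤ := Φ₀ (Additive.ofMul (Tel p)) with hc
  have hc0 : ((c : ℤ) : ZMod n) = 0 := by
    rw [hc, h₀]
    exact hpar (Tel p) (trace_Tel p)
  refine ⟨Φ₀ - c • e, ?_, ?_⟩
  · apply isParabolicHom_of_apply_T_eq_zero
    simp [he, hc]
  · intro g
    simp only [AddMonoidHom.sub_apply, AddMonoidHom.smul_apply, smul_eq_mul, Int.cast_sub,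
      Int.cast_mul, hc0, zero_mul, sub_zero]
    exact h₀ g

end Fermat.Agent.S16_helper61
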