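/-
T16 / LB-LIFT (helper61): the LIFTING LEMMA for `Γ₀(p)`, `p` prime, assembled from landed pieces.

A homomorphism `ψ : Γ₀(p) → ℤ/n` killing the finite-order elements and the parabolic elements lifts
to a parabolic homomorphism `Γ₀(p) → ℤ`.

Ingredients: helper4's universal property of `PSL(2,ℤ) = C₂ * C₃` (`PingPong.exists_hom_of_sq_cube`),
helper95's orbit-wise lifts (`SH.exists_lift_invol`, `SH.exists_lift_three`), helper65's `e(T) = 1`
(`exists_addHom_T_eq_one`), and the transfer relation / parabolic criterion of `ParabolicCrit`.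

Construction: `Ω := Idx p × ℤ`; `s̃ (x,m) = (x·S, m + a x)`, `ũ (x,m) = (x·ST, m + b x)` with `a`, `b`
orbit-wise integral lifts of the Shapiro values `ψ(tel x S)`, `ψ(tel x (ST))`.  Then `s̃² = 1 = ũ³`,
so there is `ρ : SL(2,ℤ) → (Perm Ω)ᵐᵒᵖ`; every `ρ g` has the skew form
`(x,m) ↦ (x·g, m + f x)` with `f x ≡ ψ(tel x g) mod n`; `Φ₀ γ := f_γ(∞)` is an integral lift of `ψ`.
-/
import Fermat.Agent.S16_helper61.LiftCorrect
import Fermat.Agent.S16.LB.PingPong
import Fermat.Agent.S16.LB.OrbitLift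

set_option autoImplicit false

open CongruenceSubgroup ModularGroup Matrix.SpecialLinearGroup
open scoped MatrixGroups

namespace Fermat.Agent.S16_helper61

open Fermat.Agent.S16.Conj (Idx rep)
open ModularCurve.Period

variable (p : ℕ) [Fact p.Prime]

/-! ### more on `act` and `tel` -/

theorem act_neg_one (x : Idx p) : act p x (-1) = x :=
  act_unique p (by simpa using neg_one_mem p)

theorem tel_neg_one (x : Idx p) : tel p x (-1) = negOne p :=
  tel_eq p (y := x) (negOne p) (by simp [negOne])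

theorem tel_one (x : Idx p) : tel p x 1 = 1 :=
  tel_eq p (y := x) 1 (by simp)

theorem act_none_of_mem (γ : Gamma0 p) : act p none (γ : SL(2, ℤ)) = none :=
  act_unique p (by simpa using γ.2)

theorem tel_none_of_mem (γ : Gamma0 p) : tel p none (γ : SL(2, ℤ)) = γ :=
  tel_eq p (x := none) (y := none) γ (by simp)

theorem isOfFinOrder_tel_of_fixed (g : SL(2, ℤ)) (k : ℕ) (hk : 0 < k) (hg : g ^ k = 1)
    (x : Idx p) (hx : act p x g = x) : IsOfFinOrder (tel p x g) := by
  have hmem : rep p x * g * (rep p x)⁻¹ ∈ Gamma0 p := by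
    have := act_spec p x g
    rwa [hx] at this
  have e : tel p x g = ⟨rep p x * g * (rep p x)⁻¹, hmem⟩ :=
    tel_eq p (y := x) ⟨_, hmem⟩ (by simp)
  rw [e, isOfFinOrder_iff_pow_eq_one]
  refine ⟨k, hk, Subtype.ext ?_⟩
  show (rep p x * g * (rep p x)⁻¹) ^ k = 1
  rw [conj_pow, hg]
  simp

theorem S_mul_S' : (S * S : SL(2, ℤ)) = -1 := by decide

theorem ST_cube' : (S * T * (S * T * (S * T)) : SL(2, ℤ)) = -1 := by decide

theorem S_pow_four : (S : SL(2, ℤ)) ^ 4 = 1 := by decide

theorem ST_pow_six : (S * T : SL(2, ℤ)) ^ 6 = 1 := by decide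

/-! ### the construction -/

section lift

variable (n : ℕ) [NeZero n] (ψ : Additive (Gamma0 p) →+ ZMod n)

/-- the skew shift on `Ω = Idx p × ℤ` attached to a permutation-like map and a weight. -/
def skew (σ : Idx p → Idx p) (a : Idx p → ℤ) : Idx p × ℤ → Idx p × ℤ :=
  fun ω => (σ ω.1, ω.2 + a ω.1)

theorem exists_lift_hom
    (hfin : ∀ g : Gamma0 p, IsOfFinOrder g → ψ (Additive.ofMul g) = 0) :
    ∃ Φ₀ : Additive (Gamma0 p) →+ ℤ, ∀ g, ((Φ₀ g : ℤ) : ZMod n) = ψ g := by
  classical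
  have hneg : ψ (Additive.ofMul (negOne p)) = 0 := by
    apply hfin
    rw [isOfFinOrder_iff_pow_eq_one]
    refine ⟨2, by norm_num, Subtype.ext ?_⟩
    show ((-1 : SL(2, ℤ))) ^ 2 = 1
    simp
  -- the two permutations of the index set
  set σ : Idx p → Idx p := fun x => act p x S with hσdef
  set τ : Idx p → Idx p := fun x => act p x (S * T) with hτdef
  have hσ : ∀ x, σ (σ x) = x := fun x => by
    show act p (act p x S) S = x
    rw [← act_mul, S_mul_S', act_neg_one]
  have hτ : ∀ x, τ (τ (τ x)) = x := fun x => by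
    show act p (act p (act p x (S * T)) (S * T)) (S * T) = x
    rw [← act_mul, ← act_mul, ST_cube', act_neg_one]
  -- Shapiro values
  set abar : Idx p → ZMod n := fun x => ψ (Additive.ofMul (tel p x S)) with habar
  set bbar : Idx p → ZMod n := fun x => ψ (Additive.ofMul (tel p x (S * T))) with hbbar
  have ha1 : ∀ x, abar x + abar (σ x) = 0 := fun x => by
    show ψ (Additive.ofMul (tel p x S)) + ψ (Additive.ofMul (tel p (act p x S) S)) = 0
    rw [← map_add, ← ofMul_mul, ← tel_mul, S_mul_S', tel_neg_one, hneg]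
  have ha0 : ∀ x, σ x = x → abar x = 0 := fun x hx =>
    hfin _ (isOfFinOrder_tel_of_fixed p S 4 (by norm_num) S_pow_four x hx)
  have hb1 : ∀ x, bbar x + bbar (τ x) + bbar (τ (τ x)) = 0 := fun x => by
    show ψ (Additive.ofMul (tel p x (S * T))) + ψ (Additive.ofMul (tel p (act p x (S * T)) (S * T)))
      + ψ (Additive.ofMul (tel p (act p (act p x (S * T)) (S * T)) (S * T))) = 0
    have e : tel p x (S * T * (S * T * (S * T))) = tel p x (S * T) *
        (tel p (act p x (S * T)) (S * T) * tel p (act p (act p x (S * T)) (S * T)) (S * T)) := by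
      rw [tel_mul p x (S * T) (S * T * (S * T)), tel_mul p (act p x (S * T)) (S * T) (S * T)]
    rw [add_assoc, ← map_add, ← map_add, ← ofMul_mul, ← ofMul_mul, ← e, ST_cube',
      tel_neg_one, hneg]
  have hb0 : ∀ x, τ x = x → bbar x = 0 := fun x hx =>
    hfin _ (isOfFinOrder_tel_of_fixed p (S * T) 6 (by norm_num) ST_pow_six x hx)
  obtain ⟨a, haa, har⟩ := Fermat.Agent.S16.LB.SH.exists_lift_invol σ hσ n abar ha1 ha0
  obtain ⟨b, hbb, hbr⟩ := Fermat.Agent.S16.LB.SH.exists_lift_three τ hτ n bbar hb1 hb0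
  -- the two permutations of `Ω`
  have hs2 : ∀ ω, skew p σ a (skew p σ a ω) = ω := by
    rintro ⟨x, m⟩
    simp only [skew, hσ]
    have := haa x
    ext
    · rfl
    · show m + a x + a (σ x) = m
      omega
  have hu3 : ∀ ω, skew p τ b (skew p τ b (skew p τ b ω)) = ω := by
    rintro ⟨x, m⟩
    simp only [skew, hτ]
    have := hbb x
    ext
    · rfl
    · show m + b x + b (τ x) + b (τ (τ x)) = m
      omega
  let sP : Equiv.Perm (Idx p × ℤ) := ⟨skew p σ a, skew p σ a, hs2, hs2⟩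
  let uP : Equiv.Perm (Idx p × ℤ) :=
    ⟨skew p τ b, fun ω => skew p τ b (skew p τ b ω), hu3, hu3⟩
  have hsP : (MulOpposite.op sP) ^ 2 = 1 := by
    rw [← MulOpposite.op_pow, ← MulOpposite.op_one]
    congr 1
    ext ω : 1
    rw [pow_two]
    exact hs2 ω
  have huP : (MulOpposite.op uP) ^ 3 = 1 := by
    rw [← MulOpposite.op_pow, ← MulOpposite.op_one]
    congr 1
    ext ω : 1
    rw [pow_succ, pow_two]
    exact hu3 ω
  obtain ⟨ρ, hρS, hρST, -⟩ :=
    Fermat.Agent.S16.LB.PingPong.exists_hom_of_sq_cube (MulOpposite.op sP) (MulOpposite.op uP) hsP huP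
  -- the action `R g` of `g` on `Ω`: `R (g h) = R h ∘ R g`
  set R : SL(2, ℤ) → Idx p × ℤ → Idx p × ℤ := fun g ω => (ρ g).unop ω with hR
  have hRmul : ∀ g h ω, R (g * h) ω = R h (R g ω) := fun g h ω => by
    show (ρ (g * h)).unop ω = (ρ h).unop ((ρ g).unop ω)
    rw [map_mul, MulOpposite.unop_mul]
    rfl
  have hRone : ∀ ω, R 1 ω = ω := fun ω => by
    show (ρ 1).unop ω = ω
    rw [map_one]
    rfl
  -- the skew form
  let P : SL(2, ℤ) → Prop := fun g =>
    ∃ f : Idx p → ℤ, (∀ x m, R g (x, m) = (act p x g, m + f x)) ∧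
      ∀ x, ((f x : ℤ) : ZMod n) = ψ (Additive.ofMul (tel p x g))
  have hPS : P S := ⟨a, fun x m => by
    show (ρ S).unop (x, m) = _
    rw [hρS]
    rfl, har⟩
  have hPST : P (S * T) := ⟨b, fun x m => by
    show (ρ (S * T)).unop (x, m) = _
    rw [hρST]
    rfl, hbr⟩
  have hPone : P 1 := ⟨0, fun x m => by rw [hRone, act_one]; simp, fun x => by
    rw [tel_one]; simp⟩
  have hPmul : ∀ g h, P g → P h → P (g * h) := by
    rintro g h ⟨f, hf1, hf2⟩ ⟨f', hf1', hf2'⟩
    refine ⟨fun x => f x + f' (act p x g), fun x m => ?_, fun x => ?_⟩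
    · rw [hRmul, hf1, hf1', act_mul, add_assoc]
    · rw [tel_mul, ofMul_mul, map_add, ← hf2, ← hf2']
      push_cast
      rfl
  have hPinv : ∀ g, P g → P g⁻¹ := by
    rintro g ⟨f, hf1, hf2⟩
    refine ⟨fun y => - f (act p y g⁻¹), fun y m => ?_, fun y => ?_⟩
    · -- `R g⁻¹` is the inverse of `R g`
      have hinv : ∀ ω, R g⁻¹ (R g ω) = ω := fun ω => by
        rw [← hRmul, mul_inv_cancel, hRone]
      have h1 := hf1 (act p y g⁻¹) (m - f (act p y g⁻¹))
      have h2 : act p (act p y g⁻¹) g = y := by rw [← act_mul, inv_mul_cancel, act_one]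
      rw [h2, sub_add_cancel] at h1
      rw [← h1, hinv]
      simp [sub_eq_add_neg]
    · have h2 : act p (act p y g⁻¹) g = y := by rw [← act_mul, inv_mul_cancel, act_one]
      have h3 : tel p y g⁻¹ * tel p (act p y g⁻¹) g = 1 := by
        rw [← tel_mul, inv_mul_cancel, tel_one]
      have h4 := congrArg (fun t => ψ (Additive.ofMul t)) h3
      simp only [ofMul_mul, map_add, ofMul_one, map_zero] at h4
      push_cast
      rw [hf2]
      linear_combination -h4
  have hPT : P T := by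
    have : (T : SL(2, ℤ)) = S⁻¹ * (S * T) := by group
    rw [this]
    exact hPmul _ _ (hPinv _ hPS) hPST
  have hPall : ∀ g : SL(2, ℤ), P g := by
    intro g
    have hmem : g ∈ Subgroup.closure ({S, T} : Set SL(2, ℤ)) := by
      rw [SpecialLinearGroup.SL2Z_generators]; trivial
    induction hmem using Subgroup.closure_induction with
    | mem x hx =>
      rcases hx with rfl | rfl
      · exact hPS
      · exact hPT
    | one => exact hPone
    | mul x y _ _ hx hy => exact hPmul _ _ hx hy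
    | inv x _ hx => exact hPinv _ hx
  -- the lift
  have hval : ∀ γ : Gamma0 p, ∀ m : ℤ,
      R (γ : SL(2, ℤ)) (none, m) = (none, m + (R (γ : SL(2, ℤ)) (none, 0)).2) := by
    intro γ m
    obtain ⟨f, hf1, -⟩ := hPall (γ : SL(2, ℤ))
    rw [hf1, hf1, act_none_of_mem]
    simp
  refine ⟨AddMonoidHom.mk' (fun γ => (R ((Additive.toMul γ : Gamma0 p) : SL(2, ℤ)) (none, 0)).2)
    (fun γ γ' => ?_), fun γ => ?_⟩
  · show (R (((Additive.toMul γ * Additive.toMul γ' : Gamma0 p)) : SL(2, ℤ)) (none, 0)).2 = _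
    rw [Subgroup.coe_mul, hRmul, hval (Additive.toMul γ) 0, hval (Additive.toMul γ')]
  · show (((R ((Additive.toMul γ : Gamma0 p) : SL(2, ℤ)) (none, 0)).2 : ℤ) : ZMod n) = ψ γ
    obtain ⟨f, hf1, hf2⟩ := hPall ((Additive.toMul γ : Gamma0 p) : SL(2, ℤ))
    rw [hf1]
    simp only [zero_add]
    rw [hf2, tel_none_of_mem]
    rfl

/-- **LIFTING LEMMA** (helper99's common statement, board 960). -/
theorem exists_parabolic_lift (ψ : Additive (Gamma0 p) →+ ZMod n)
    (hfin : ∀ g : Gamma0 p, IsOfFinOrder g → ψ (Additive.ofMul g) = 0)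
    (hpar : IsParabolicHom (Gamma0 p) ψ) :
    ∃ Φ : Additive (Gamma0 p) →+ ℤ, IsParabolicHom (Gamma0 p) Φ ∧
      ∀ g, ((Φ g : ℤ) : ZMod n) = ψ g := by
  obtain ⟨Φ₀, h₀⟩ := exists_lift_hom p n ψ hfin
  exact exists_parabolic_lift_of_lift p n ψ hpar Φ₀ h₀

end lift

end Fermat.Agent.S16_helper61
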